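import Mathlib
import Fermat.Prelude.Def_ModularCurve_ArithmeticGalois
import Fermat.Prelude.Def_ModularCurve_PeriodMap
import Fermat.Prelude.Def_GaloisRep_Residual

/-!
# GAL : shared definitions (master file of the project "Galois representations of weight 2 forms")

* `FL L M`    : function field of `X₀(M)` over `L`, inside `L((q))`  (prelude `laurentBaseChange`)
* `IsKum L M n h` : `h ∈ L((q))ˣ`, `hⁿ ∈ FL L M`, `n ∣ ord_P (hⁿ)` for all places `P` of `FL L M / L`
* `NmL R ℓ`   : the norm `R((q)) → R((q))` along `q ↦ q^ℓ`  ( `= ∏_b h(ζ^b q^{1/ℓ})` )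
* `heckeS R ℓ h = h(q^ℓ) * NmL R ℓ h` : multiplicative Hecke operator on `q`-series
* `galS σ`    : Galois action on the coefficients
-/

set_option autoImplicit false

open ModularCurve AlgebraicCurve

noncomputable section

namespace Fermat.Agent.GAL

/-- `ℚ̄`. -/
abbrev Qb : Type := AlgebraicClosure ℚ

/-- `Gal(ℚ̄/ℚ)`. -/
abbrev GQ : Type := Qb ≃ₐ[ℚ] Qb

/-- The function field of `X₀(M)` over `L`, as a subfield of `L((q))`. -/
abbrev FL (L : Type*) [Field L] [Algebra ℚ L] (M : ℕ) : IntermediateField L (LaurentSeries L) :=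
  laurentBaseChange L (modularFunctionFieldFull M)

/-- Everywhere unramified Kummer elements of exponent `n`. -/
def IsKum (L : Type*) [Field L] [Algebra ℚ L] (M n : ℕ) (h : LaurentSeries L) : Prop :=
  h ≠ 0 ∧ ∃ hf : h ^ n ∈ FL L M, ∀ P : Place L (FL L M), (n : ℤ) ∣ P.ord ⟨h ^ n, hf⟩

/-- The norm of `R((q))` over `R((q^ℓ)) ≅ R((q))`. -/
def NmL (R : Type*) [CommRing R] (ℓ : ℕ) [NeZero ℓ] : LaurentSeries R →* LaurentSeries R :=
  letI : Algebra (LaurentSeries R) (LaurentSeries R) := (qExpand R ℓ).toAlgebra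
  Algebra.norm (LaurentSeries R)

/-- The multiplicative Hecke operator `h ↦ h(q^ℓ) ∏_b h(ζ^b q^{1/ℓ})` on `q`-series. -/
def heckeS (R : Type*) [CommRing R] (ℓ : ℕ) [NeZero ℓ] : LaurentSeries R →* LaurentSeries R where
  toFun h := qExpand R ℓ h * NmL R ℓ h
  map_one' := by simp
  map_mul' a b := by simp only [map_mul]; ring

/-- Galois action on coefficients. -/
def galS (σ : GQ) : LaurentSeries Qb →+* LaurentSeries Qb := coeffMap (σ : Qb →+* Qb)

/-- `A((q)) → ℚ̄((q))`. -/
def inclA (A : ValuationSubring Qb) : LaurentSeries A →+* LaurentSeries Qb := coeffMap A.subtype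

/-- `A((q)) → k_A((q))`. -/
def redA (A : ValuationSubring Qb) :
    LaurentSeries A →+* LaurentSeries (IsLocalRing.ResidueField A) :=
  coeffMap (IsLocalRing.residue A)

/-- `M` is an admissible auxiliary level: `Γ₀(M)/±1` is torsion free. -/
def AdmLevel (M : ℕ) : Prop := 4 ∣ M ∨ 9 ∣ M

end Fermat.Agent.GAL
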