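import Fermat.Agent.GAL.AN.Package
import Fermat.Agent.GR.FormalES

/-!
# GAL : definitions of the integration layer (sorry free; import this, not `Master.lean`)

* `HGM n bad`           : Hecke–Galois module of exponent `n` (verbatim from `Master.lean`)
* `KeyLemmaStatement`   : the OFFICIAL contract of block KL (Gauss form; replaces `key_lemma` and
                          `good_rep` of `Master.lean`)
* `AnSystem M`          : a family of `AnPackage M n`, compatible in `n` (needed by the adic layer)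
-/

set_option autoImplicit false

open ModularCurve AlgebraicCurve CongruenceSubgroup
open scoped MatrixGroups

noncomputable section

namespace Fermat.Agent.GAL

/-- A `ℤ/n`-module with commuting Galois and Hecke actions satisfying Eichler–Shimura. -/
structure HGM (n bad : ℕ) where
  V : Type
  [acg : AddCommGroup V]
  [mod : Module (ZMod n) V]
  gal : GQ →* Module.End (ZMod n) V
  T : ℕ → Module.End (ZMod n) V
  comm : ∀ σ ℓ, Commute (gal σ) (T ℓ)
  smooth : ∀ v : V, ∃ L : IntermediateField ℚ Qb, FiniteDimensional ℚ L ∧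
    ∀ σ : GQ, (∀ x ∈ L, σ x = x) → gal σ v = v
  es : ∀ ℓ : ℕ, ℓ.Prime → ¬ ℓ ∣ bad → ∀ A : ValuationSubring Qb, A.LiesOverPrime ℓ →
    ∀ σ : GQ, A.IsFrobeniusAt σ ℓ → gal σ * gal σ - T ℓ * gal σ + (ℓ : Module.End (ZMod n) V) = 0
  inertia : ∀ ℓ : ℕ, ℓ.Prime → ¬ ℓ ∣ bad → ∀ A : ValuationSubring Qb, A.LiesOverPrime ℓ →
    ∀ σ ∈ A.inertiaSubgroupIn ℚ, gal σ = 1

attribute [instance] HGM.acg HGM.mod

/-- **OFFICIAL CONTRACT OF BLOCK KL** (key lemma, Gauss form): an element `W` of the function field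
of `X₀(M)` over `ℚ̄` whose divisor is divisible by `n` and whose reduction at `A ∣ ℓ`, `ℓ ∤ nM`,
is `1`, is an `n`-th power. -/
def KeyLemmaStatement : Prop :=
  ∀ (M n ℓ : ℕ), M ≠ 0 → AdmLevel M → ℓ.Prime → ¬ ℓ ∣ M → ¬ ℓ ∣ n →
    ∀ A : ValuationSubring Qb, A.LiesOverPrime ℓ →
      ∀ (W : LaurentSeries Qb) (hW : W ∈ FL Qb M), W ≠ 0 → GR.HasRed A W 1 →
        (∀ P : Place Qb (FL Qb M), (n : ℤ) ∣ P.ord ⟨W, hW⟩) → ∃ y ∈ FL Qb M, y ^ n = W

/-- reduction `ℤ/(n k) → ℤ/n` on homomorphisms. -/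
def castHPar (M n k : ℕ) (P : Additive (Gamma0 M) →+ ZMod (n * k)) : Additive (Gamma0 M) →+ ZMod n :=
  (ZMod.castHom (Dvd.intro k rfl) (ZMod n) : ZMod (n * k) →+* ZMod n).toAddMonoidHom.comp P

/-- A family of analytic packages, compatible in the exponent: if `H ∘ γ = e(P(γ)/(nk)) H` then
`H ^ k ∘ γ = e(P(γ)/n) H ^ k`. -/
structure AnSystem (M : ℕ) where
  pk : ∀ n : ℕ, n ≠ 0 → AnPackage M n
  pow_mem : ∀ (n k : ℕ) (hn : n ≠ 0) (hk : k ≠ 0), ∀ u ∈ (pk (n * k) (Nat.mul_ne_zero hn hk)).Van,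
    u ^ k ∈ (pk n hn).Van
  chr_pow : ∀ (n k : ℕ) (hn : n ≠ 0) (hk : k ≠ 0) (u : (pk (n * k) (Nat.mul_ne_zero hn hk)).Van),
    ((Multiplicative.toAdd ((pk n hn).chr ⟨_, pow_mem n k hn hk u u.2⟩) : HPar M n) :
        Additive (Gamma0 M) →+ ZMod n) =
      castHPar M n k ((Multiplicative.toAdd ((pk (n * k) (Nat.mul_ne_zero hn hk)).chr u) :
        HPar M (n * k)) : Additive (Gamma0 M) →+ ZMod (n * k))

end Fermat.Agent.GAL
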