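import Fermat.Agent.GAL.Defs

/-!
# GAL : the Hecke operator `T_ℓ` on `Hom(Γ₀(M), A)`   (definition only; properties = block HK)

`α_∞ = (ℓ 0; 0 1)`, `α_b = (1 b; 0 ℓ)`.  For `γ ∈ Γ₀(M)`: `α_i γ = γ_i α_{σ(i)}` with `γ_i ∈ Γ₀(M)`,
and `(T_ℓ P)(γ) = ∑_i P(γ_i)`.
-/

set_option autoImplicit false

open ModularCurve CongruenceSubgroup
open scoped MatrixGroups

noncomputable section

namespace Fermat.Agent.GAL

/-- coset representatives of `Γ₀(M) \ Γ₀(M) (1 0; 0 ℓ) Γ₀(M)`. -/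
def heckeRep (ℓ : ℕ) : Option (Fin ℓ) → Matrix (Fin 2) (Fin 2) ℤ
  | none => !![(ℓ : ℤ), 0; 0, 1]
  | some b => !![1, (b : ℤ); 0, (ℓ : ℤ)]

open Classical in
/-- `γ_i`, defined by `α_i γ = γ_i α_j`. -/
def heckeCoc (M ℓ : ℕ) (γ : Gamma0 M) (i : Option (Fin ℓ)) : Gamma0 M :=
  if h : ∃ γ' : Gamma0 M, ∃ j : Option (Fin ℓ),
      heckeRep ℓ i * ((γ : SL(2, ℤ)) : Matrix (Fin 2) (Fin 2) ℤ) =
        ((γ' : SL(2, ℤ)) : Matrix (Fin 2) (Fin 2) ℤ) * heckeRep ℓ j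
  then h.choose else 1

/-- `γ ↦ ∑_i P(γ_i)`. -/
def heckeCohFun (M ℓ : ℕ) {A : Type*} [AddCommGroup A] (P : Additive (Gamma0 M) →+ A)
    (γ : Gamma0 M) : A :=
  ∑ i : Option (Fin ℓ), P (Additive.ofMul (heckeCoc M ℓ γ i))

open Classical in
/-- `T_ℓ` on `Hom(Γ₀(M), A)` (junk value `0` if `heckeCohFun` were not a homomorphism). -/
def heckeCoh (M ℓ : ℕ) {A : Type*} [AddCommGroup A] (P : Additive (Gamma0 M) →+ A) :
    Additive (Gamma0 M) →+ A :=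
  if h : ∃ Q : Additive (Gamma0 M) →+ A, ∀ γ, Q (Additive.ofMul γ) = heckeCohFun M ℓ P γ
  then h.choose else 0

end Fermat.Agent.GAL
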