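import Fermat.Agent.GAL.Mod.Gen

/-!
# GAL : the integration theorem `exists_hgm` (from the key lemma and the analytic package)
-/

set_option autoImplicit false
set_option linter.style.haveILetI false

open ModularCurve AlgebraicCurve CongruenceSubgroup

noncomputable section

namespace Fermat.Agent.GAL

section

variable {M n : ℕ} (pk : AnPackage M n) (hn : n ≠ 0)

/-- the system of Kummer elements of exponent `n` generated by one analytic package. -/
def hgmSys : KumSys M := genSys (fun _ : Unit => n) (fun _ => pk) (fun _ => hn) ()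

instance hgmModule : Module (ZMod n) (hgmSys pk hn).W :=
  AddCommGroup.zmodModule (n := n) (G := (hgmSys pk hn).W)
    (genSys_nsmul_eq_zero (fun _ : Unit => n) (fun _ => pk) (fun _ => hn) () n fun _ => dvd_rfl)

/-- Galois action, `ℤ/n`-linear. -/
def hgmAct (σ : GQ) : Module.End (ZMod n) (hgmSys pk hn).W :=
  AddMonoidHom.toZModLinearMap n ((hgmSys pk hn).act σ)

/-- Hecke action, `ℤ/n`-linear. -/
def hgmT (ℓ : ℕ) : Module.End (ZMod n) (hgmSys pk hn).W :=
  AddMonoidHom.toZModLinearMap n ((hgmSys pk hn).T ℓ)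

/-- `Ψ`, `ℤ/n`-linear. -/
def hgmPsi : HPar M n →ₗ[ZMod n] (hgmSys pk hn).W :=
  AddMonoidHom.toZModLinearMap n (psi (fun _ : Unit => n) (fun _ => pk) (fun _ => hn) () ())

theorem hgmAct_apply (σ : GQ) (x : (hgmSys pk hn).W) :
    hgmAct pk hn σ x = (hgmSys pk hn).act σ x := rfl

theorem hgmT_apply (ℓ : ℕ) (x : (hgmSys pk hn).W) :
    hgmT pk hn ℓ x = (hgmSys pk hn).T ℓ x := rfl

theorem hgm_split (ℓ : ℕ) (h : ¬ ℓ ∣ M * n) : ¬ ℓ ∣ M ∧ (hgmSys pk hn).good ℓ :=
  ⟨fun h' => h (Dvd.dvd.mul_right h' n), fun _ h' => h (Dvd.dvd.mul_left h' M)⟩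

/-- the Hecke–Galois module. -/
def hgm (hK : KeyLemmaStatement) (hM0 : M ≠ 0) (hM : AdmLevel M) : HGM n (M * n) where
  V := (hgmSys pk hn).W
  gal :=
    { toFun := hgmAct pk hn
      map_one' := LinearMap.ext fun x => (hgmSys pk hn).act_one x
      map_mul' := fun σ τ => LinearMap.ext fun x => (hgmSys pk hn).act_mul σ τ x }
  T := hgmT pk hn
  comm := fun σ ℓ => LinearMap.ext fun x => (hgmSys pk hn).act_T σ ℓ x
  smooth := fun v => (hgmSys pk hn).smooth v
  es := fun ℓ hℓ hbad A hA σ hσ => LinearMap.ext fun x => by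
    have h := (hgmSys pk hn).es hK hM0 hM hℓ (hgm_split pk hn ℓ hbad).1
      (hgm_split pk hn ℓ hbad).2 A hA σ hσ x
    simpa [Module.End.mul_apply, Module.End.natCast_apply, hgmAct_apply, hgmT_apply] using h
  inertia := fun ℓ hℓ hbad A hA σ hσ => LinearMap.ext fun x =>
    (hgmSys pk hn).inertia hK hM0 hM hℓ (hgm_split pk hn ℓ hbad).1
      (hgm_split pk hn ℓ hbad).2 A hA σ hσ x

end

/-- **(I)** the Hecke–Galois module of level `M` and exponent `n`, together with a Hecke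
equivariant injection of `Hom_par(Γ₀(M), ℤ/n)`; from the contracts of the blocks KL and AN. -/
theorem exists_hgm_of (hK : KeyLemmaStatement) (M n : ℕ) [NeZero M] [NeZero n] (hM : AdmLevel M)
    (hAn : Nonempty (AnPackage M n)) :
    ∃ (H : HGM n (M * n)) (Ψ : HPar M n →ₗ[ZMod n] H.V), Function.Injective Ψ ∧
      ∀ ℓ : ℕ, ℓ.Prime → ¬ ℓ ∣ M → ∀ P : HPar M n, ∀ Q : HPar M n,
        (Q : Additive (Gamma0 M) →+ ZMod n) = heckeCoh M ℓ (P : Additive (Gamma0 M) →+ ZMod n) →
        H.T ℓ (Ψ P) = Ψ Q := by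
  obtain ⟨pk⟩ := hAn
  refine ⟨hgm pk (NeZero.ne n) hK (NeZero.ne M) hM, hgmPsi pk (NeZero.ne n),
    psi_injective (fun _ : Unit => n) (fun _ => pk) (fun _ => NeZero.ne n) () (), ?_⟩
  intro ℓ hℓ hℓM P Q hQ
  exact T_psi (fun _ : Unit => n) (fun _ => pk) (fun _ => NeZero.ne n) () () hℓ hℓM P Q hQ

end Fermat.Agent.GAL
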